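/-
S44 / DEPTH, the instance, block MD (helper104): `NodeModelD` from the model of level `M' * 4 * p`
over the inertia field (`BAD/LevelQ`, `S44/X/Model`), modulo the finiteness input of block FIN.
-/
import Fermat.Agent.S44.Depth.Inst.MDDefs
import Fermat.Agent.S44.X.Model.Top
import Fermat.Agent.BAD.LevelQ.Pt.B.ExportDepth

set_option autoImplicit false
set_option linter.unusedSectionVars false

noncomputable section

namespace Fermat.Agent.S44.Depth.Inst

open ModularCurve AlgebraicCurve Fermat.Agent.S24 Fermat.Agent.S18 Fermat.Agent.S36.Mod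
  Fermat.Agent.BAD.LevelQ Fermat.Agent.BAD.LevelQ.Mod Fermat.Agent.Lib.EtaUnit
  Fermat.Agent.Lib.InertiaField Fermat.Agent.S36.BP Fermat.Agent.S44.X Fermat.Agent.S44.X.Model
  Fermat.Agent.S28.Export

/-- **The input of block FIN**: all the closed points of the model have the finiteness property. -/
def NodeFinD : Prop :=
  ∀ (p : ℕ) (A : ValuationSubring S44.Qb), p.Prime → A.LiesOverPrime p → ∀ (N : ℕ)
    (z : FK (K0 A) N) (V : Fin 2 → ValuationSubring (FK (K0 A) N)),
    MChart (A0 A) (p : K0 A) V z →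
      ∀ R, IsModelPt (A0 A) (p : K0 A) z R → BAD.LevelQ.FinAt (A0 A) R

variable {A : ValuationSubring S44.Qb} {p M : ℕ} [NeZero p] [NeZero M]
  [IsDiscreteValuationRing (A0 A)]

/-- (i) the Gauss valuation ring. -/
theorem MD.isGauss (hp : p.Prime) (hA : A.LiesOverPrime p) (hpM : ¬ p ∣ M) :
    IsGauss A (stdEmb (A0 A) (M * p)).val := by
  intro f
  constructor
  · intro hf
    exact ⟨_, red_rhoM (comap_A0 A) hp hA hpM ⟨f, hf⟩⟩
  · rintro ⟨g, hg⟩
    by_contra hf
    have hf0 : f ≠ 0 := by
      rintro rfl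
      exact hf (zero_mem _)
    have hinv : (stdEmb (A0 A) (M * p)).val.valuation f⁻¹ < 1 := by
      rw [map_inv₀]
      have h1 : 1 < (stdEmb (A0 A) (M * p)).val.valuation f := by
        rw [← not_le, ValuationSubring.valuation_le_one_iff]
        exact hf
      exact inv_lt_one_of_one_lt₀ h1
    have hmem : f⁻¹ ∈ (stdEmb (A0 A) (M * p)).val :=
      (ValuationSubring.valuation_le_one_iff _ _).1 hinv.le
    have h2 := red_rhoM (comap_A0 A) hp hA hpM ⟨f⁻¹, hmem⟩
    rw [rhoM_eq_zero (comap_A0 A) hp hA hpM ⟨f⁻¹, hmem⟩ hinv] at h2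
    have h3 := hg.mul h2
    have e : ((bcK (K0 A) (M * p) f : FN (M * p)) : LaurentSeries S44.Qb) *
        coeffMap (algebraMap (K0 A) S44.Qb) ((f⁻¹ : FK (K0 A) (M * p)) : LaurentSeries (K0 A)) =
        1 := by
      rw [coe_bcK, ← map_mul]
      have : ((f : FK (K0 A) (M * p)) : LaurentSeries (K0 A)) *
          ((f⁻¹ : FK (K0 A) (M * p)) : LaurentSeries (K0 A)) = 1 := by
        have := congrArg Subtype.val (mul_inv_cancel₀ hf0)
        exact this
      rw [this, map_one]
    have h4 : Red A (1 : LaurentSeries S44.Qb) (g * 0) := by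
      rw [← e]
      exact h3
    rw [mul_zero] at h4
    exact one_ne_zero (red_one.unique h4)

/-- (iii) a local ring dominated by the composite valuation ring is centred. -/
theorem MD.centred (hp : p.Prime) (hA : A.LiesOverPrime p) (hpM : ¬ p ∣ M)
    (w : Place (kA A) (Fk A M)) {R : Subring (FK (K0 A) (M * p))}
    (h : Dominates (VVw (comap_A0 A) hp hA hpM w) R) : Inst.Centred A M p w R := by
  intro r hr g hg
  obtain ⟨h1, h2⟩ := (mem_VVw_iff (comap_A0 A) hp hA hpM w).1 (h.1 r hr)
  have h3 := red_rhoM (comap_A0 A) hp hA hpM ⟨r, h1⟩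
  have h4 : (g : LaurentSeries (kA A)) = (rhoM (comap_A0 A) hp hA hpM ⟨r, h1⟩ : Fk A M) :=
    hg.unique h3
  rw [Subtype.ext h4]
  exact h2

end Fermat.Agent.S44.Depth.Inst

end
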