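/-
S44 / DEPTH, the instance, block MD (helper104): `NodeFinD` from the export of block FIN.
-/
import Fermat.Agent.S44.Depth.Inst.MD.Core
import Fermat.Agent.S44.Depth.Fin.Defs

set_option autoImplicit false
set_option linter.unusedSectionVars false

noncomputable section

namespace Fermat.Agent.S44.Depth.Inst

open Fermat.Agent.S24 Fermat.Agent.S18 Fermat.Agent.BAD.LevelQ
  Fermat.Agent.Lib.InertiaField Fermat.Agent.S36.BP Polynomial IntermediateField

section Abs

variable {K₀ F : Type*} [Field K₀] [Field F] [Algebra K₀ F]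

/-- a coordinate with transcendental reduction is transcendental -/
theorem MD.transcendental_of_isMCoord {A₀ : ValuationSubring K₀} {W : ValuationSubring F} {z : F}
    (h : IsMCoord A₀ W z) : Transcendental K₀ z := by
  rintro ⟨P, hP0, hP⟩
  -- scale `P` so that its coefficients are integral and one of them is a unit
  obtain ⟨i, hi, hmax⟩ : ∃ i ∈ P.support, ∀ j ∈ P.support,
      A₀.valuation (P.coeff j) ≤ A₀.valuation (P.coeff i) :=
    Finset.exists_max_image P.support (fun j => A₀.valuation (P.coeff j))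
      (nonempty_support_iff.2 hP0)
  have hci : P.coeff i ≠ 0 := mem_support_iff.1 hi
  have hvi : A₀.valuation (P.coeff i) ≠ 0 := (Valuation.ne_zero_iff _).2 hci
  set Q : K₀[X] := C (P.coeff i)⁻¹ * P with hQ
  have hQc : ∀ j, Q.coeff j ∈ A₀ := by
    intro j
    rw [hQ, coeff_C_mul, ← ValuationSubring.valuation_le_one_iff, map_mul, map_inv₀]
    by_cases hj : j ∈ P.support
    · rw [inv_mul_le_iff₀ (zero_lt_iff.2 hvi), mul_one]
      exact hmax j hj
    · rw [notMem_support_iff.1 hj, map_zero, mul_zero]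
      exact zero_le
  have hQz : W.valuation (aeval z Q) < 1 := by
    rw [hQ, map_mul, hP, mul_zero, map_zero]
    exact zero_lt_one
  have := h.transc Q hQc hQz i
  rw [hQ, coeff_C_mul, inv_mul_cancel₀ hci, map_one] at this
  exact lt_irrefl _ this

theorem MD.adjoin_inv (z : F) : K₀⟮z⁻¹⟯ = K₀⟮z⟯ := by
  apply le_antisymm
  · rw [adjoin_simple_le_iff]
    exact inv_mem (mem_adjoin_simple_self K₀ z)
  · rw [adjoin_simple_le_iff]
    have := inv_mem (mem_adjoin_simple_self K₀ z⁻¹)
    rwa [inv_inv] at this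

theorem MD.transcendental_inv {z : F} (h : Transcendental K₀ z) : Transcendental K₀ z⁻¹ := by
  intro h1
  apply h
  have := h1.inv
  rwa [inv_inv] at this

end Abs

/-- The export of block FIN, over the inertia field. -/
def FinExport : Prop :=
  ∀ (A : ValuationSubring S44.Qb) (N : ℕ) (ϖ₀ : K0 A), IsUnif (A0 A) ϖ₀ →
    ∀ z : FK (K0 A) N, Transcendental (K0 A) z → FiniteDimensional (K0 A)⟮z⟯ (FK (K0 A) N) →
      ∀ (𝔫 : Ideal (chart (A0 A).toSubring z)) [𝔫.IsPrime],
        (∀ b : chart (A0 A).toSubring z,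
          (b : FK (K0 A) N) = algebraMap (K0 A) (FK (K0 A) N) ϖ₀ → b ∈ 𝔫) →
        Depth.FinAt (A0 A) (locSub (chart (A0 A).toSubring z) 𝔫)

theorem nodeFinD_of (h : FinExport) : NodeFinD := by
  intro p A _ _ N z V MC R hR
  have htr : Transcendental (K0 A) z := MD.transcendental_of_isMCoord (MC.coord 0)
  have hfin : FiniteDimensional (K0 A)⟮z⟯ (FK (K0 A) N) := MC.vert.finite
  rcases hR with ⟨𝔫, hmax, hϖ, rfl⟩ | ⟨𝔫, hmax, hϖ, rfl⟩
  · exact h A N _ MC.vert.unif₀ z htr hfin 𝔫 hϖ
  · have hfin' : FiniteDimensional (K0 A)⟮z⁻¹⟯ (FK (K0 A) N) := by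
      rw [MD.adjoin_inv]
      exact hfin
    exact h A N _ MC.vert.unif₀ z⁻¹ (MD.transcendental_inv htr) hfin' 𝔫 hϖ

end Fermat.Agent.S44.Depth.Inst

end
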