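/-
S44 / DEPTH, the instance, block MD (helper104): `nodeModelD_of : NodeFinD → NodeModelD`.
-/
import Fermat.Agent.S44.Depth.Inst.MD.Core

set_option autoImplicit false
set_option linter.unusedSectionVars false

noncomputable section

namespace Fermat.Agent.S44.Depth.Inst

open ModularCurve AlgebraicCurve Fermat.Agent.S24 Fermat.Agent.S18 Fermat.Agent.S36.Mod
  Fermat.Agent.BAD.LevelQ Fermat.Agent.BAD.LevelQ.Mod Fermat.Agent.Lib.EtaUnit
  Fermat.Agent.Lib.InertiaField Fermat.Agent.S36.BP Fermat.Agent.S44.X Fermat.Agent.S44.X.Model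
  Fermat.Agent.S28.Export

theorem nodeModelD_of (hF : NodeFinD) : NodeModelD := by
  intro p _ M' _ hp h5 hpM' hp4 A hA
  have := isDiscreteValuationRing_A0 A p hp hA
  have hpM : ¬ p ∣ M' * 4 := fun h => hpM' (hp4.dvd_of_dvd_mul_right h)
  have hc : (M' * 4).Coprime p := ((Nat.Prime.coprime_iff_not_dvd hp).2 hpM).symm
  have hN : 4 * p ∣ M' * 4 * p := ⟨M', by ring⟩
  have h4 : 4 ∣ M' * 4 := Dvd.intro_left M' rfl
  obtain ⟨D, -, hDbar⟩ := S34.Nodal.Inst.Base.exists_baseData_j (M' * 4) p hp h5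
  obtain ⟨γ₀, -, H⟩ := lq_inertia A hp hA hc D (beInt_j D hDbar)
  rw [xK_eq_jK (K0 A) hDbar] at H
  obtain ⟨c, C⟩ := exists_cuspQ H
  have E := etaW1 isW1_G4 hp4 h4 hc hN (A₀ := A0 A) (K := K0 A)
  have hx := x_mem_ch₁ isW1_G4 hp4 h4 hc hN H
  have hy := y_mem_ch₁ isW1_G4 hp4 h4 hc hN H
  have hac := isAlgClosed_residueField_A0 A p hp hA
  have hfin := hF p A hp hA (M' * 4 * p) _ _ H.mChart
  have E' : Eta (algebraMap (K0 A) (FK (K0 A) (M' * 4 * p)) (p : K0 A)) (VV (A0 A) hc)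
      (unitK isW1_G4 p (M' * 4 * p) hp4 hN (K0 A)) (yK isW1_G4 hp4 hN (K0 A)) := by
    rw [map_natCast]
    exact E
  refine ⟨VV (A0 A) hc 0, VV (A0 A) hc 1, unitK isW1_G4 p (M' * 4 * p) hp4 hN (K0 A),
    yK isW1_G4 hp4 hN (K0 A), _, _, _, MD.isGauss hp hA hpM, H.nodalModel hac E' hx hy C hfin,
    ⟨1, one_ne_zero, ?_⟩, fun w => ?_⟩
  · rw [map_one, one_mul]
    exact baseChangeMap_unitK isW1_G4 p (M' * 4 * p) hp4 hN _
  · obtain ⟨R, -, hdom, h1, h2⟩ := H.exists_point_depth hac E' hx hy C hfin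
      (VVw (comap_A0 A) hp hA hpM w)
      (const_mem_VVw (comap_A0 A) hp hA hpM w) (VVw_le (comap_A0 A) hp hA hpM w)
      (VVw_ne (comap_A0 A) hp hA hpM w (resFieldMap_surjective hp hA))
    refine ⟨R, MD.centred hp hA hpM w hdom, ?_⟩
    by_cases hw : 0 ≤ w.ord (jk A (M' * 4))
    · rcases h1 ((al_jK_mem_VVw_iff hp hpM hA w).2 hw) with hn | ⟨hs, hu⟩
      · exact Or.inl ⟨hn, hw⟩
      · exact Or.inr ⟨hs, fun _ => hu⟩
    · exact Or.inr ⟨h2 fun hmem => hw ((al_jK_mem_VVw_iff hp hpM hA w).1 hmem),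
        fun h => absurd h hw⟩

end Fermat.Agent.S44.Depth.Inst

end
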