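/-
S44 / DEPTH, the instance, block MD (helper104): **`nodeModelD : NodeModelD`**, unconditional.
-/
import Fermat.Agent.S44.Depth.Inst.MD.Main
import Fermat.Agent.S44.Depth.Inst.MD.FinCore
import Fermat.Agent.S44.Depth.Fin.Main
import Fermat.Agent.S44.Depth.Fin.HensA0

set_option autoImplicit false

namespace Fermat.Agent.S44.Depth.Inst

theorem finExport : FinExport :=
  fun A _ _ hU z htr hfin 𝔫 _ hϖ => fin_of_hens hU (hens_A0 A) z htr hfin 𝔫 hϖ

theorem nodeFinD : NodeFinD := nodeFinD_of finExport

/-- **Block MD of the route DEPTH.** -/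
theorem nodeModelD : NodeModelD := nodeModelD_of nodeFinD

end Fermat.Agent.S44.Depth.Inst
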